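import Fermat.Agent.Curve.Descent.Places
import Fermat.Agent.Curve.Diff.Lattice
import Fermat.Agent.Curve.RR.Setup

/-!
# Riemann–Roch spaces, genus and `Pic⁰` under constant field extension
-/

set_option autoImplicit false

noncomputable section

open AlgebraicCurve IntermediateField Polynomial FermatAgent.Curve.Diff FermatAgent.Curve.RR

namespace FermatAgent.Curve.Descent

theorem adjoinSimple_gen_eq_top {k E : Type*} [Field k] [Field E] [Algebra k E] (x : E) :
    k⟮AdjoinSimple.gen k x⟯ = ⊤ := by
  apply IntermediateField.map_injective k⟮x⟯.val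
  rw [adjoin_map, ← AlgHom.fieldRange_eq_map, fieldRange_val, Set.image_singleton]
  rfl

variable {K K' F F' : Type*} [Field K] [Field K'] [Field F] [Field F']
  [Algebra K K'] [Algebra K F] [Algebra K' F'] [Algebra F F'] [Algebra K F']
  [IsScalarTower K F F'] [IsScalarTower K K' F']
  [IsAlgClosed K] [CharZero K] [IsFunctionField1 K F] [IsConstantExtension K K' F F']
  [IsAlgClosed K'] [IsFunctionField1 K' F']

omit [IsAlgClosed K] [CharZero K] [IsFunctionField1 K F] [IsConstantExtension K K' F F']
  [IsAlgClosed K'] [IsFunctionField1 K' F'] in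
variable (K K') in
theorem charZero_constants [CharZero K] : CharZero K' :=
  charZero_of_injective_algebraMap (algebraMap K K').injective

/-- An element of `L'(D')` is a `K'`-combination of elements of `F`. -/
theorem mem_span_range_of_mem_riemannRochSpace (D : Divisor K F) {f : F'}
    (hf : f ∈ riemannRochSpace (extDivisor K' F' D)) :
    f ∈ Submodule.span K' (Set.range (algebraMap F F')) := by
  classical
  have := charZero_constants K K'
  obtain ⟨t, ht⟩ := IsConstantExtension.exists_transcendental (K := K) (K' := K') (F := F) (F' := F')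
  have htK := transcendental_of_map (K := K) ht
  have := finiteDimensional_adjoin_of_transcendental htK
  have := isSeparable_adjoin (K := K) htK
  have := finiteDimensional_adjoin_of_transcendental ht
  have := isSeparable_adjoin (K := K') ht
  set L := K⟮t⟯
  set L' := K'⟮algebraMap F F' t⟯
  set u : L := AdjoinSimple.gen K t
  set u' : L' := AdjoinSimple.gen K' (algebraMap F F' t)
  have hu : IsGen K u := ⟨fun h => htK (h.algebraMap (A := F)), adjoinSimple_gen_eq_top t⟩
  have hu' : IsGen K' u' := ⟨fun h => ht (h.algebraMap (A := F')), adjoinSimple_gen_eq_top _⟩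
  have hut : algebraMap L F u = t := AdjoinSimple.algebraMap_gen K t
  have hut' : algebraMap L' F' u' = algebraMap F F' t := AdjoinSimple.algebraMap_gen K' _
  obtain ⟨b, hb⟩ := exists_finReg_basis (F := F) hu
  set S := D.support.filter fun P => FinAt u P
  set T : K[X] := ∏ P ∈ S, (Polynomial.X - C (valueAt P t)) ^ (D P).toNat
  have hT : T ≠ 0 := Finset.prod_ne_zero_iff.mpr fun P _ => pow_ne_zero _ (X_sub_C_ne_zero _)
  have hT0 : aeval u T ≠ 0 := fun h0 => hu.transcendental ⟨_, hT, h0⟩
  set w := b.unitsSMul fun _ => Units.mk0 (aeval u T) hT0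
  have hw : ∀ i, w i = algebraMap L F (aeval u T) * b i := fun i => by
    simp [w, Module.Basis.unitsSMul_apply, Units.smul_def, Algebra.smul_def]
  have hword : ∀ i, ∀ P : Place K F, FinAt u P → OrdGE P (D P) (w i) := by
    intro i P hP
    have hTF : algebraMap L F (aeval u T) ≠ 0 := (_root_.map_ne_zero _).mpr hT0
    have h0 : OrdGE P (D P) (algebraMap L F (aeval u T)) := by
      refine Or.inr ?_
      have hnn := (finReg_aeval (K := K) (F := F) T P hP).le_ord hTF
      by_cases hPS : P ∈ S
      · obtain ⟨T', hT'⟩ : (Polynomial.X - C (valueAt P t)) ^ (D P).toNat ∣ T :=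
          Finset.dvd_prod_of_mem _ hPS
        have hT'0 : algebraMap L F (aeval u T') ≠ 0 := fun h => hTF (by rw [hT', map_mul, map_mul, h, mul_zero])
        have hlin : algebraMap L F (aeval u (Polynomial.X - C (valueAt P t)))
            = t - algebraMap K F (valueAt P t) := by
          rw [map_sub, aeval_X, aeval_C, map_sub, hut, ← IsScalarTower.algebraMap_apply]
        have hpos := mem_zerosFinset.mp (hP.mem_zerosAt hu)
        rw [hut] at hpos
        have hne : t - algebraMap K F (valueAt P t) ≠ 0 := fun h => by rw [h] at hpos; simp at hpos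
        have h1 := (finReg_aeval (K := K) (F := F) T' P hP).le_ord hT'0
        rw [hT', map_mul, map_mul, map_pow, map_pow, hlin,
          P.ord_mul (pow_ne_zero _ hne) hT'0, ord_pow']
        have h3 : ((D P).toNat : ℤ) * 1 ≤ (D P).toNat * P.ord (t - algebraMap K F (valueAt P t)) :=
          mul_le_mul_of_nonneg_left (by omega) (by omega)
        have h4 : D P ≤ ((D P).toNat : ℤ) := Int.self_le_toNat _
        omega
      · have hD0 : D P = 0 := by
          by_contra h
          exact hPS (Finset.mem_filter.mpr ⟨Finsupp.mem_support_iff.mpr h, hP⟩)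
        omega
    have h := h0.mul (hb i P hP)
    rwa [add_zero, ← hw] at h
  have hfin : ∀ i, FinReg K' u' (f * algebraMap F F' (w i)) := by
    intro i Q hQ
    by_cases hQr : Q ∈ Set.range (extPlace (K := K) (F := F) K' F')
    · obtain ⟨P, rfl⟩ := hQr
      have hP : FinAt u P := by
        simp only [FinAt, OrdGE, hut', ord_extPlace,
          _root_.map_eq_zero] at hQ
        simpa only [FinAt, OrdGE, hut] using hQ
      have h1 : OrdGE (extPlace K' F' P) (-D P) f :=
        ((mem_riemannRochSpace_iff.mp hf) (extPlace K' F' P)).imp_right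
          (fun h => by rwa [extDivisor_apply_extPlace] at h)
      have h2 : OrdGE (extPlace K' F' P) (D P) (algebraMap F F' (w i)) :=
        (hword i P hP).imp (fun h => by rw [h, map_zero]) (fun h => by rwa [ord_extPlace])
      exact (h1.mul h2).mono (by omega)
    · have h1 : OrdGE Q 0 f := ((mem_riemannRochSpace_iff.mp hf) Q).imp_right
        (fun h => by rwa [extDivisor_apply_of_notMem hQr, neg_zero] at h)
      have h2 : OrdGE Q 0 (algebraMap F F' (w i)) :=
        Or.inr (ord_map_eq_zero_of_notMem_range hQr _).ge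
      simpa using h1.mul h2
  set w' := mapBasis ht w
  have hdual : ∀ i, w'.traceDual i = algebraMap F F' (w.traceDual i) := by
    refine congrFun (Module.Basis.traceDual_eq_iff.mpr fun i j => ?_)
    rw [Algebra.traceForm_apply, mapBasis_apply, ← map_mul, trace_map (K := K) ht,
      Module.Basis.trace_traceDual_mul]
    split_ifs <;> simp
  rw [← w'.traceDual.sum_repr f]
  refine Submodule.sum_mem _ fun i _ => ?_
  obtain ⟨p, hp⟩ := (hfin i).isPolynomial_trace hu'
  rw [Module.Basis.traceDual_repr_apply, Algebra.traceForm_apply, mapBasis_apply, hp, hdual,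
    Algebra.smul_def, ← aeval_algebraMap_apply, hut',
    aeval_eq_sum_range, Finset.sum_mul]
  refine Submodule.sum_mem _ fun k _ => ?_
  rw [smul_mul_assoc, ← map_pow, ← map_mul]
  exact Submodule.smul_mem _ _ (Submodule.subset_span ⟨_, rfl⟩)

variable (K' F') in
/-- `K'·L(D)`. -/
def extSpan (D : Divisor K F) : Submodule K' F' :=
  Submodule.span K' (algebraMap F F' '' (riemannRochSpace D : Set F))

theorem extSpan_le (D : Divisor K F) : extSpan K' F' D ≤ riemannRochSpace (extDivisor K' F' D) := by
  refine Submodule.span_le.mpr ?_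
  rintro _ ⟨x, hx, rfl⟩
  refine mem_riemannRochSpace_iff.mpr fun Q => ?_
  by_cases hQ : Q ∈ Set.range (extPlace (K := K) (F := F) K' F')
  · obtain ⟨P, rfl⟩ := hQ
    refine ((mem_riemannRochSpace_iff.mp hx) P).imp (fun h => by rw [h, map_zero]) fun h => ?_
    rwa [extDivisor_apply_extPlace, ord_extPlace]
  · refine Or.inr ?_
    rw [extDivisor_apply_of_notMem hQ, ord_map_eq_zero_of_notMem_range hQ, neg_zero]

/-- One-point descent. -/
theorem extSpan_single_step (E : Divisor K F) (P : Place K F) {f : F'}
    (h1 : f ∈ extSpan K' F' (E + Finsupp.single P 1))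
    (h2 : f ∈ riemannRochSpace (extDivisor K' F' E)) : f ∈ extSpan K' F' E := by
  classical
  by_cases h : riemannRochSpace (E + Finsupp.single P 1) ≤ riemannRochSpace E
  · exact Submodule.span_mono (Set.image_mono h) h1
  obtain ⟨g, hg, hng⟩ := SetLike.not_le_iff_exists.mp h
  obtain ⟨hg0, hgo⟩ := ord_eq_of_notMem hg hng
  obtain ⟨c, u, hu, hfu⟩ : ∃ (c : K') (u : F'), u ∈ extSpan K' F' E ∧
      f = c • algebraMap F F' g + u := by
    clear h2
    induction h1 using Submodule.span_induction with
    | mem y hy =>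
      obtain ⟨x, hx, rfl⟩ := hy
      have hx' := mem_riemannRochSpace_iff.mp hx P
      rw [Finsupp.add_apply, Finsupp.single_eq_same, neg_add'] at hx'
      obtain ⟨a, ha⟩ := exists_sub_smul P (FermatAgent.Curve.deg_eq_one P) hg0 hgo hx'
      refine ⟨algebraMap K K' a, algebraMap F F' (x - a • g), Submodule.subset_span
        ⟨_, mem_of_mem_add_single (sub_mem hx (Submodule.smul_mem _ a hg))
          (ha.imp id fun h => by omega), rfl⟩, ?_⟩
      rw [map_sub, Algebra.smul_def, Algebra.smul_def, map_mul, ← IsScalarTower.algebraMap_apply,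
        ← IsScalarTower.algebraMap_apply, add_sub_cancel]
    | zero => exact ⟨0, 0, zero_mem _, by simp⟩
    | add y z _ _ hy hz =>
      obtain ⟨c, u, hu, rfl⟩ := hy
      obtain ⟨d, v, hv, rfl⟩ := hz
      exact ⟨c + d, u + v, add_mem hu hv, by rw [add_smul]; abel⟩
    | smul a y _ hy =>
      obtain ⟨c, u, hu, rfl⟩ := hy
      exact ⟨a * c, a • u, Submodule.smul_mem _ a hu, by rw [smul_add, mul_smul]⟩
  by_cases hc : c = 0
  · simpa [hfu, hc] using hu
  exfalso
  have hmem : c • algebraMap F F' g ∈ riemannRochSpace (extDivisor K' F' E) := by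
    have := sub_mem h2 (extSpan_le E hu)
    rwa [hfu, add_sub_cancel_right] at this
  have hne : c • algebraMap F F' g ≠ 0 := smul_ne_zero hc ((_root_.map_ne_zero _).mpr hg0)
  have h3 := (mem_riemannRochSpace_iff.mp hmem (extPlace K' F' P)).resolve_left hne
  rw [Algebra.smul_def, Place.ord_mul _ ((_root_.map_ne_zero _).mpr hc)
    ((_root_.map_ne_zero _).mpr hg0), ord_algebraMap_const, ord_extPlace,
    extDivisor_apply_extPlace, hgo] at h3
  omega

/-- **Descent of Riemann–Roch spaces**: `L'(D') = K'·L(D)`. -/
theorem riemannRochSpace_extDivisor (D : Divisor K F) :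
    riemannRochSpace (extDivisor K' F' D) = extSpan K' F' D := by
  classical
  refine le_antisymm (fun f hf => ?_) (extSpan_le D)
  obtain ⟨n, a, v, hav⟩ := Submodule.mem_span_set'.mp (mem_span_range_of_mem_riemannRochSpace D hf)
  choose x hx using fun i => (v i).2
  obtain ⟨E, hE, hxE⟩ : ∃ E : Divisor K F, D ≤ E ∧ ∀ i, x i ∈ riemannRochSpace E := by
    refine ⟨(D ⊔ 0) + ∑ i, (-(divisorOf (K := K) (x i)) ⊔ 0),
      le_trans le_sup_left (le_add_of_nonneg_right (Finset.sum_nonneg fun i _ => le_sup_right)),
      fun i => mem_riemannRochSpace_iff.mpr fun P => Or.inr ?_⟩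
    have h1 : ((-(divisorOf (K := K) (x i)) ⊔ 0 : Divisor K F)) P ≤
        ((D ⊔ 0) + ∑ i, (-(divisorOf (K := K) (x i)) ⊔ 0)) P := by
      refine Finsupp.le_def.mp ?_ P
      exact le_trans (Finset.single_le_sum (f := fun i => (-(divisorOf (K := K) (x i)) ⊔ 0))
        (fun i _ => le_sup_right) (Finset.mem_univ i)) (le_add_of_nonneg_left le_sup_right)
    have h2 := Finsupp.le_def.mp (le_sup_left :
      -(divisorOf (K := K) (x i)) ≤ -(divisorOf (K := K) (x i)) ⊔ 0) P
    rw [Finsupp.neg_apply, divisorOf_apply] at h2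
    omega
  have hfE : f ∈ extSpan K' F' E := by
    rw [← hav]
    exact Submodule.sum_mem _ fun i _ =>
      Submodule.smul_mem _ _ (Submodule.subset_span ⟨x i, hxE i, hx i⟩)
  refine (?_ : f ∈ extSpan K' F' E → f ∈ extSpan K' F' D) hfE
  refine le_induction (p := fun E => f ∈ extSpan K' F' E → f ∈ extSpan K' F' D) id ?_ hE
  intro E P hDE ih h1
  refine ih (extSpan_single_step E P h1 (mem_riemannRochSpace_iff.mpr fun Q => ?_))
  refine (mem_riemannRochSpace_iff.mp hf Q).imp_right (le_trans (neg_le_neg ?_))
  by_cases hQ : Q ∈ Set.range (extPlace (K := K) (F := F) K' F')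
  · obtain ⟨P', rfl⟩ := hQ
    rw [extDivisor_apply_extPlace, extDivisor_apply_extPlace]
    exact Finsupp.le_def.mp hDE P'
  · rw [extDivisor_apply_of_notMem hQ, extDivisor_apply_of_notMem hQ]

theorem ell_extDivisor (D : Divisor K F) : ell (extDivisor K' F' D) = ell D := by
  classical
  let b := Module.finBasis K (riemannRochSpace D)
  have hli := linearIndependent_map (K := K) (K' := K') (F' := F')
    (b.linearIndependent.map' (riemannRochSpace D).subtype (riemannRochSpace D).ker_subtype)
  have hspan : extSpan K' F' D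
      = Submodule.span K' (Set.range fun i => algebraMap F F' (b i : F)) := by
    refine le_antisymm (Submodule.span_le.mpr ?_) (Submodule.span_mono ?_)
    · rintro _ ⟨x, hx, rfl⟩
      have h := congrArg (fun y => algebraMap F F' (Subtype.val y)) (b.sum_repr ⟨x, hx⟩)
      simp only [Submodule.coe_sum, Submodule.coe_smul, map_sum] at h
      rw [SetLike.mem_coe, ← h]
      refine Submodule.sum_mem _ fun i _ => ?_
      rw [Algebra.smul_def, map_mul, ← IsScalarTower.algebraMap_apply,
        IsScalarTower.algebraMap_apply K K' F', ← Algebra.smul_def]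
      exact Submodule.smul_mem _ _ (Submodule.subset_span ⟨i, rfl⟩)
    · rintro _ ⟨i, rfl⟩
      exact ⟨_, (b i).2, rfl⟩
  have h := finrank_span_eq_card hli
  rw [Fintype.card_fin] at h
  rw [ell, riemannRochSpace_extDivisor, hspan]
  exact h

variable (K K' F F') in
/-- **The genus is invariant under constant field extension.** -/
theorem genusFF_eq : genusFF K' F' = genusFF K F := by
  obtain ⟨P⟩ := instNonemptyPlace (K := K) (F := F)
  set D : Divisor K F := Finsupp.single P (2 * (genusFF K F : ℤ) + 2 * genusFF K' F')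
  have hd : Divisor.degree D = 2 * (genusFF K F : ℤ) + 2 * genusFF K' F' := by
    rw [Divisor.degree_single, FermatAgent.Curve.deg_eq_one P, Nat.cast_one, mul_one]
  have h1 := ell_eq_of_degree_ge (D := D) (by rw [hd]; omega)
  have h2 := ell_eq_of_degree_ge (D := extDivisor K' F' D) (by rw [degree_extDivisor, hd]; omega)
  rw [ell_extDivisor, degree_extDivisor, h1] at h2
  omega

theorem isPrincipal_of_extDivisor {D : Divisor K F}
    (h : (extDivisor K' F' D).IsPrincipal) : D.IsPrincipal := by
  obtain ⟨f, hf0, hf⟩ := h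
  have hdeg : Divisor.degree D = 0 := by
    rw [← degree_extDivisor (K' := K') (F' := F')]
    exact degree_eq_zero_of_isPrincipal ⟨f, hf0, hf⟩
  have hmem : f ∈ riemannRochSpace (extDivisor K' F' (-D)) := by
    refine mem_riemannRochSpace_iff.mpr fun Q => Or.inr ?_
    rw [map_neg, Finsupp.neg_apply, neg_neg, hf Q]
  have hne : ell (-D) ≠ 0 := by
    rw [← ell_extDivisor (K' := K') (F' := F'), ell]
    intro h0
    rw [Submodule.finrank_eq_zero] at h0
    rw [h0, Submodule.mem_bot] at hmem
    exact hf0 hmem
  obtain ⟨g, hg, hg0⟩ := Submodule.exists_mem_ne_zero_of_ne_bot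
    (fun h => hne (by rw [ell, Submodule.finrank_eq_zero, h]) : riemannRochSpace (-D) ≠ ⊥)
  refine ⟨g, hg0, fun P => ?_⟩
  have hle : ∀ Q, 0 ≤ (divisorOf (K := K) g - D) Q := fun Q => by
    have := (mem_riemannRochSpace_iff.mp hg Q).resolve_left hg0
    simp only [Finsupp.sub_apply, Finsupp.neg_apply, neg_neg, divisorOf_apply] at this ⊢
    omega
  have h0 : Divisor.degree (divisorOf (K := K) g - D) = 0 := by
    rw [map_sub, degree_divisorOf, hdeg, sub_zero]
  rw [degree_eq_sum, Finsupp.sum] at h0
  by_contra hne'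
  have hP : P ∈ (divisorOf (K := K) g - D).support := by
    rw [Finsupp.mem_support_iff, Finsupp.sub_apply, divisorOf_apply]
    omega
  have := Finset.sum_pos' (fun Q _ => hle Q) ⟨P, hP, lt_of_le_of_ne (hle P)
    (Ne.symm (Finsupp.mem_support_iff.mp hP))⟩
  omega

variable (K' F') in
/-- `Pic⁰ F → Pic⁰ F'`. -/
def pic0Map : Pic0 K F →+ Pic0 K' F' :=
  QuotientAddGroup.map _ _
    (((extDivisor K' F').comp (Divisor.degZero (K := K) (F := F)).subtype).codRestrict
      (Divisor.degZero (K := K') (F := F')) fun D => by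
        rw [Divisor.mem_degZero]
        exact (degree_extDivisor _).trans D.2)
    (by
      rintro ⟨D, hD⟩ hP
      simp only [AddSubgroup.mem_addSubgroupOf, AddSubgroup.mem_comap] at hP ⊢
      obtain ⟨f, hf0, hf⟩ := hP
      refine ⟨algebraMap F F' f, (_root_.map_ne_zero _).mpr hf0, fun Q => ?_⟩
      have : D = divisorOf (K := K) f := Finsupp.ext fun P => hf P
      show extDivisor K' F' D Q = _
      rw [this, extDivisor_divisorOf, divisorOf_apply])

theorem pic0Map_mk (D : Divisor.degZero (K := K) (F := F)) :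
    pic0Map K' F' (Pic0.mk D) = Pic0.mk ⟨extDivisor K' F' (D : Divisor K F), by
      rw [Divisor.mem_degZero]; exact (degree_extDivisor _).trans D.2⟩ := rfl

theorem pic0Map_injective : Function.Injective (pic0Map (K := K) (F := F) K' F') := by
  rw [injective_iff_map_eq_zero]
  intro x hx
  obtain ⟨D, rfl⟩ := Pic0.mk_surjective x
  rw [pic0Map_mk, Pic0.mk, QuotientAddGroup.eq_zero_iff, AddSubgroup.mem_addSubgroupOf] at hx
  rw [Pic0.mk, QuotientAddGroup.eq_zero_iff, AddSubgroup.mem_addSubgroupOf]
  exact isPrincipal_of_extDivisor hx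

end FermatAgent.Curve.Descent
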