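import Fermat.Agent.Curve.Descent.Places
import Fermat.Prelude.Def_AlgebraicCurve_BaseChangeGalois
import Mathlib.RingTheory.AlgebraicIndependent.TranscendenceBasis
import Mathlib.RingTheory.AlgebraicIndependent.Adjoin
import Mathlib.RingTheory.AlgebraicIndependent.Transcendental

/-!
# Places with finite orbit under automorphisms of the constants come from the small field
-/

set_option autoImplicit false

noncomputable section

open AlgebraicCurve FermatAgent.Curve.Diff

namespace FermatAgent.Curve.Descent

section Field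

variable {K K' : Type*} [Field K] [Field K'] [Algebra K K'] [IsAlgClosed K']

/-- Translation of a transcendental element by a constant extends to an automorphism. -/
theorem exists_algEquiv_apply_eq_add {c : K'} (hc : Transcendental K c) (a : K) :
    ∃ τ : K' ≃ₐ[K] K', τ c = c + algebraMap K K' a := by
  classical
  obtain ⟨s, hcs, hs⟩ := exists_isTranscendenceBasis_superset
    (R := K) (A := K') (s := {c}) ((algebraicIndependent_singleton_iff (x := fun i : ({c} : Set K') => (i : K')) ⟨c, rfl⟩).mpr hc)
  set c₀ : s := ⟨c, hcs rfl⟩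
  set M := IntermediateField.adjoin K (Set.range ((↑) : s → K'))
  let sub : K → (MvPolynomial s K →ₐ[K] MvPolynomial s K) := fun b =>
    MvPolynomial.aeval fun i => MvPolynomial.X i + if i = c₀ then MvPolynomial.C b else 0
  have hcomp : ∀ b b', b + b' = 0 → (sub b).comp (sub b') = AlgHom.id K _ := fun b b' h => by
    refine MvPolynomial.algHom_ext fun i => ?_
    simp only [sub, AlgHom.comp_apply, MvPolynomial.aeval_X, map_add, AlgHom.id_apply]
    split_ifs with hi
    · rw [MvPolynomial.aeval_C, add_assoc, MvPolynomial.algebraMap_eq, ← map_add, h, map_zero,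
        add_zero]
    · simp
  let φ : MvPolynomial s K ≃ₐ[K] MvPolynomial s K :=
    AlgEquiv.ofAlgHom (sub a) (sub (-a)) (hcomp _ _ (add_neg_cancel a))
      (hcomp _ _ (neg_add_cancel a))
  let e := hs.1.aevalEquivField
  let φF : FractionRing (MvPolynomial s K) ≃ₐ[K] FractionRing (MvPolynomial s K) :=
    IsFractionRing.algEquivOfAlgEquiv φ
  let σ : M ≃ₐ[K] M := e.symm.trans (φF.trans e)
  have : Algebra.IsAlgebraic M K' := hs.isAlgebraic_field
  have : IsAlgClosure M K' := ⟨inferInstance, inferInstance⟩
  let τ : K' ≃+* K' := IsAlgClosure.equivOfEquiv K' K' (R := M) (S := M) σ.toRingEquiv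
  have hτ : ∀ x : M, τ (x : K') = (σ x : K') := fun x =>
    IsAlgClosure.equivOfEquiv_algebraMap K' K' (R := M) (S := M) σ.toRingEquiv x
  refine ⟨AlgEquiv.ofRingEquiv (f := τ) fun k => ?_, ?_⟩
  · have h := hτ (algebraMap K M k)
    rw [σ.commutes] at h
    exact h
  · have hcM : c ∈ M := IntermediateField.subset_adjoin K _ ⟨c₀, rfl⟩
    have he : ∀ p : MvPolynomial s K,
        (e (algebraMap _ (FractionRing (MvPolynomial s K)) p) : K')
          = MvPolynomial.aeval ((↑) : s → K') p := fun p =>
      hs.1.aevalEquivField_algebraMap_apply_coe p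
    have hc' : e (algebraMap _ _ (MvPolynomial.X c₀)) = (⟨c, hcM⟩ : M) :=
      Subtype.ext (by rw [he, MvPolynomial.aeval_X])
    show τ c = _
    rw [show τ c = (σ ⟨c, hcM⟩ : K') from hτ ⟨c, hcM⟩, ← hc']
    simp only [σ, φF, AlgEquiv.trans_apply, AlgEquiv.symm_apply_apply,
      IsFractionRing.algEquivOfAlgEquiv_algebraMap]
    rw [he]
    simp [φ, sub, c₀]

theorem infinite_orbit [IsAlgClosed K] {c : K'} (hc : c ∉ Set.range (algebraMap K K')) :
    (Set.range fun τ : K' ≃ₐ[K] K' => τ c).Infinite := by
  have hct : Transcendental K c := fun h => hc (by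
    have hb := IsAlgClosed.algebraMap_bijective_of_isIntegral (k := K)
      (K := integralClosure K K')
    obtain ⟨d, hd⟩ := hb.2 ⟨c, h.isIntegral⟩
    exact ⟨d, congrArg Subtype.val hd⟩)
  refine Set.Infinite.mono (s := Set.range fun a : K => c + algebraMap K K' a) ?_ ?_
  · rintro _ ⟨a, rfl⟩
    exact exists_algEquiv_apply_eq_add hct a
  · exact Set.infinite_range_of_injective fun a b h =>
      (algebraMap K K').injective (add_left_cancel h)

end Field

variable {K K' F F' : Type*} [Field K] [Field K'] [Field F] [Field F']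
  [Algebra K K'] [Algebra K F] [Algebra K' F'] [Algebra F F'] [Algebra K F']
  [IsScalarTower K F F'] [IsScalarTower K K' F']
  [IsAlgClosed K] [CharZero K] [IsFunctionField1 K F] [IsConstantExtension K K' F F']
  [IsAlgClosed K'] [IsFunctionField1 K' F']

theorem valueAt_smul (g : SemilinearAut K' F') (Q : Place K' F') {f : F'}
    (hf : f ∈ Q.toValuationSubring) :
    valueAt (g • Q) (g • f) = SemilinearAut.baseAut g (valueAt Q f) := by
  refine valueAt_eq_of _ ((valueAt_spec Q hf).imp ?_ ?_)
  · intro h
    rw [← SemilinearAut.smul_algebraMap, ← h]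
  · intro h
    rw [← SemilinearAut.smul_algebraMap, ← smul_sub, SemilinearAut.ord_smul]
    exact h

/-- A place whose orbit under automorphisms of `K'/K`, fixing `F`, is finite comes from `F`. -/
theorem exists_extPlace_eq_of_finite_orbit (g : (K' ≃ₐ[K] K') → SemilinearAut K' F')
    (hg : ∀ τ a, SemilinearAut.baseAut (g τ) a = τ a)
    (hgF : ∀ τ (x : F), g τ • algebraMap F F' x = algebraMap F F' x)
    {Q : Place K' F'} (hQ : (Set.range fun τ => g τ • Q).Finite) :
    ∃ P : Place K F, extPlace K' F' P = Q := by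
  by_contra hne
  obtain ⟨t, ht⟩ := IsConstantExtension.exists_transcendental (K := K) (K' := K') (F := F) (F' := F')
  have htK := transcendental_of_map (K := K) ht
  have hmem : algebraMap F F' t ∈ Q.toValuationSubring := by
    refine (mem_iff_ord_nonneg Q).mpr (Or.inr ?_)
    rw [ord_map_eq_zero_of_notMem_range fun ⟨P, hP⟩ => hne ⟨P, hP⟩]
  have hnr : valueAt Q (algebraMap F F' t) ∉ Set.range (algebraMap K K') := by
    rintro ⟨a, ha⟩
    exact hne (exists_extPlace_eq_of_valueAt htK ha.symm)
  refine infinite_orbit hnr ((hQ.image fun R => valueAt R (algebraMap F F' t)).subset ?_)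
  rintro _ ⟨τ, rfl⟩
  refine ⟨g τ • Q, ⟨τ, rfl⟩, ?_⟩
  show valueAt (g τ • Q) (algebraMap F F' t) = _
  conv_lhs => rw [show valueAt (g τ • Q) (algebraMap F F' t)
    = valueAt (g τ • Q) (g τ • algebraMap F F' t) by rw [hgF]]
  rw [valueAt_smul _ _ hmem, hg]

theorem smul_extPlace (g : SemilinearAut K' F')
    (hgF : ∀ x : F, g • algebraMap F F' x = algebraMap F F' x) (P : Place K F) :
    g • extPlace K' F' P = extPlace K' F' P := by
  obtain ⟨π, hπ0, hπ⟩ := exists_ord_eq P 1
  have h := SemilinearAut.ord_smul g (extPlace K' F' P) (algebraMap F F' π)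
  rw [hgF, ord_extPlace, hπ] at h
  obtain ⟨P', hP'⟩ := exists_extPlace_eq (K := K) (Q := g • extPlace K' F' P) (x := π) (by omega)
  rw [← hP']
  refine congrArg _ (place_eq_of_ord_eq fun f => ?_)
  rw [← ord_extPlace (K' := K') (F' := F') P' f, hP', ← ord_extPlace (K' := K') (F' := F') P f,
    ← SemilinearAut.ord_smul g (extPlace K' F' P) (algebraMap F F' f), hgF]

end FermatAgent.Curve.Descent
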