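import Fermat.Agent.Curve.Descent.Aut
import Fermat.Agent.Curve.Descent.RiemannRoch
import Fermat.Prelude.Def_ModularCurve_ArithmeticGalois

/-!
# Constant extension for `laurentBaseChange`

For `L₁ ⊆ L₂` of characteristic zero, `coeffMap` makes `laurentBaseChange L₂ F₀` a constant
extension of `laurentBaseChange L₁ F₀`, and `arithmeticGalois` supplies the semilinear actions.
The algebra structure is a definition: make it a local instance where it is needed.
-/

set_option autoImplicit false

noncomputable section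

open ModularCurve AlgebraicCurve IntermediateField

namespace FermatAgent.Curve.Descent

variable (L₁ L₂ : Type*) [Field L₁] [Field L₂] [Algebra ℚ L₁] [Algebra ℚ L₂] [Algebra L₁ L₂]
variable (F₀ : IntermediateField ℚ (LaurentSeries ℚ))

theorem coeffMap_coeffEmb' (x : LaurentSeries ℚ) :
    coeffMap (algebraMap L₁ L₂) (coeffEmb L₁ x) = coeffEmb L₂ x := by
  rw [coeffEmb, coeffEmb, coeffMap_coeffMap]
  exact coeffMap_congr (Subsingleton.elim _ _) x

omit [Algebra ℚ L₁] [Algebra ℚ L₂] in
theorem coeffMap_algebraMap' (c : L₁) :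
    coeffMap (algebraMap L₁ L₂) (algebraMap L₁ (LaurentSeries L₁) c)
      = algebraMap L₂ (LaurentSeries L₂) (algebraMap L₁ L₂ c) := by
  rw [algebraMap_laurentSeries_eq_single, algebraMap_laurentSeries_eq_single, coeffMap_single]

theorem coeffMap_mem_of_mem {x : LaurentSeries L₁} (hx : x ∈ laurentBaseChange L₁ F₀) :
    coeffMap (algebraMap L₁ L₂) x ∈ laurentBaseChange L₂ F₀ := by
  rw [mem_laurentBaseChange_iff] at hx
  induction hx using Subfield.closure_induction with
  | mem y hy =>
      rcases hy with ⟨a, rfl⟩ | ⟨z, hz, rfl⟩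
      · rw [coeffMap_algebraMap']
        exact (laurentBaseChange L₂ F₀).algebraMap_mem _
      · rw [coeffMap_coeffEmb']
        exact coeffEmb_mem_laurentBaseChange L₂ hz
  | one => simp
  | add x y _ _ hx hy => simpa using add_mem hx hy
  | neg x _ hx => simpa using neg_mem hx
  | inv x _ hx => simpa using inv_mem hx
  | mul x y _ _ hx hy => simpa using mul_mem hx hy

/-- Coefficientwise extension of constants. -/
def laurentExtHom : laurentBaseChange L₁ F₀ →+* laurentBaseChange L₂ F₀ where
  toFun x := ⟨coeffMap (algebraMap L₁ L₂) (x : LaurentSeries L₁), coeffMap_mem_of_mem L₁ L₂ F₀ x.2⟩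
  map_one' := Subtype.ext (map_one _)
  map_mul' x y := Subtype.ext
    (map_mul (coeffMap (algebraMap L₁ L₂)) (x : LaurentSeries L₁) (y : LaurentSeries L₁))
  map_zero' := Subtype.ext (map_zero _)
  map_add' x y := Subtype.ext
    (map_add (coeffMap (algebraMap L₁ L₂)) (x : LaurentSeries L₁) (y : LaurentSeries L₁))

/-- The algebra structure given by `laurentExtHom`. -/
@[reducible]
def laurentExtAlgebra : Algebra (laurentBaseChange L₁ F₀) (laurentBaseChange L₂ F₀) :=
  (laurentExtHom L₁ L₂ F₀).toAlgebra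

/-- The constants of the small field acting on the big field. -/
@[reducible]
def laurentConstAlgebra : Algebra L₁ (laurentBaseChange L₂ F₀) :=
  ((algebraMap L₂ (laurentBaseChange L₂ F₀)).comp (algebraMap L₁ L₂)).toAlgebra

attribute [local instance] laurentExtAlgebra laurentConstAlgebra

omit [Algebra ℚ L₁] in
theorem laurent_isScalarTower_const :
    IsScalarTower L₁ L₂ (laurentBaseChange L₂ F₀) :=
  IsScalarTower.of_algebraMap_eq fun _ => rfl

theorem laurent_isScalarTower_ext :
    IsScalarTower L₁ (laurentBaseChange L₁ F₀) (laurentBaseChange L₂ F₀) :=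
  IsScalarTower.of_algebraMap_eq fun c => Subtype.ext (coeffMap_algebraMap' L₁ L₂ c).symm

attribute [local instance] laurent_isScalarTower_const laurent_isScalarTower_ext

/-- `laurentBaseChange` is a constant extension as soon as one element of `F₀` stays
transcendental over `L₂`. -/
theorem laurent_isConstantExtension {j : LaurentSeries ℚ} (hj : j ∈ F₀)
    (htr : Transcendental L₂ (coeffEmb L₂ j)) :
    IsConstantExtension L₁ L₂ (laurentBaseChange L₁ F₀) (laurentBaseChange L₂ F₀) := by
  refine ⟨?_, ⟨⟨_, coeffEmb_mem_laurentBaseChange L₁ hj⟩, fun h => htr ?_⟩⟩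
  · apply IntermediateField.map_injective (laurentBaseChange L₂ F₀).val
    rw [adjoin_map, ← AlgHom.fieldRange_eq_map, fieldRange_val]
    refine le_antisymm (adjoin_le_iff.mpr ?_) (adjoin_le_iff.mpr ?_)
    · rintro _ ⟨y, -, rfl⟩
      exact y.2
    · rintro _ ⟨z, hz, rfl⟩
      refine IntermediateField.subset_adjoin L₂ _
        ⟨_, ⟨⟨_, coeffEmb_mem_laurentBaseChange L₁ hz⟩, rfl⟩, ?_⟩
      exact coeffMap_coeffEmb' L₁ L₂ z
  · have h' := h.algebraMap (A := LaurentSeries L₂)
    rw [← coeffMap_coeffEmb' L₁ L₂ j]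
    exact h'

variable {L₁ L₂} in
/-- The arithmetic action of `Aut(L₂/L₁)`. -/
def laurentAut (τ : L₂ ≃ₐ[L₁] L₂) : SemilinearAut L₂ (laurentBaseChange L₂ F₀) :=
  arithmeticGalois F₀
    (AlgEquiv.ofRingEquiv (f := τ.toRingEquiv) fun q => map_ratCast_eq τ q)
where
  map_ratCast_eq (τ : L₂ ≃ₐ[L₁] L₂) (q : ℚ) :
      τ.toRingEquiv (algebraMap ℚ L₂ q) = algebraMap ℚ L₂ q :=
    RingHom.congr_fun (Subsingleton.elim ((τ.toRingEquiv : L₂ →+* L₂).comp (algebraMap ℚ L₂))
      (algebraMap ℚ L₂)) q

omit [Algebra ℚ L₁] in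
theorem baseAut_laurentAut (τ : L₂ ≃ₐ[L₁] L₂) (a : L₂) :
    SemilinearAut.baseAut (laurentAut F₀ τ) a = τ a := rfl

theorem laurentAut_smul_map (τ : L₂ ≃ₐ[L₁] L₂) (x : laurentBaseChange L₁ F₀) :
    laurentAut F₀ τ • algebraMap (laurentBaseChange L₁ F₀) (laurentBaseChange L₂ F₀) x
      = algebraMap (laurentBaseChange L₁ F₀) (laurentBaseChange L₂ F₀) x := by
  refine Subtype.ext ?_
  rw [laurentAut, coe_arithmeticGalois_smul]
  show coeffMap _ (coeffMap (algebraMap L₁ L₂) (x : LaurentSeries L₁)) = coeffMap _ _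
  rw [coeffMap_coeffMap]
  exact coeffMap_congr (RingHom.ext fun c => τ.commutes c) _

section Consequences

variable [IsAlgClosed L₁] [IsAlgClosed L₂] [IsFunctionField1 L₁ (laurentBaseChange L₁ F₀)]
  [IsFunctionField1 L₂ (laurentBaseChange L₂ F₀)] {j : LaurentSeries ℚ} (hj : j ∈ F₀)
  (htr : Transcendental L₂ (coeffEmb L₂ j))
include hj htr

theorem laurent_genusFF_eq :
    genusFF L₂ (laurentBaseChange L₂ F₀) = genusFF L₁ (laurentBaseChange L₁ F₀) :=
  haveI : CharZero L₁ := charZero_of_injective_algebraMap (algebraMap ℚ L₁).injective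
  haveI := laurent_isConstantExtension L₁ L₂ F₀ hj htr
  genusFF_eq L₁ L₂ _ _

end Consequences

end FermatAgent.Curve.Descent
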