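import Fermat.Agent.Curve.Descent.PolyDescent
import Fermat.Agent.Curve.Basics.Defs
import Fermat.Agent.Curve.Basics.IsCurveOver
import Mathlib.FieldTheory.PrimitiveElement

/-!
# Constant field extensions of function fields: linear disjointness

`F/K` a function field, `K` algebraically closed of characteristic zero, `F' = K'·F` with some
`t ∈ F` transcendental over `K'`.  Then `[F' : K'(t)] = [F : K(t)]`, bases map to bases, and
`K`-independent elements of `F` stay `K'`-independent.
-/

set_option autoImplicit false

noncomputable section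

open IntermediateField Polynomial

namespace FermatAgent.Curve.Descent

/-- `F'` is the compositum of `K'` and `F`, with some element of `F` transcendental over `K'`. -/
class IsConstantExtension (K K' F F' : Type*) [Field K] [Field K'] [Field F] [Field F']
    [Algebra K K'] [Algebra K F] [Algebra K' F'] [Algebra F F'] [Algebra K F']
    [IsScalarTower K F F'] [IsScalarTower K K' F'] : Prop where
  adjoin_range : IntermediateField.adjoin K' (Set.range (algebraMap F F')) = ⊤
  exists_transcendental : ∃ t : F, Transcendental K' (algebraMap F F' t)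

variable {K K' F F' : Type*} [Field K] [Field K'] [Field F] [Field F']
  [Algebra K K'] [Algebra K F] [Algebra K' F'] [Algebra F F'] [Algebra K F']
  [IsScalarTower K F F'] [IsScalarTower K K' F']

theorem transcendental_of_map {t : F} (ht : Transcendental K' (algebraMap F F' t)) :
    Transcendental K t := fun h =>
  ht ((h.algebraMap (A := F')).extendScalars (algebraMap K K').injective)

theorem map_aeval_eq (t : F) (p : K[X]) :
    aeval (algebraMap F F' t) (p.map (algebraMap K K')) = algebraMap F F' (aeval t p) := by
  rw [aeval_map_algebraMap, aeval_algebraMap_apply]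

theorem map_mem_adjoin (t : F) {x : F} (hx : x ∈ K⟮t⟯) :
    algebraMap F F' x ∈ K'⟮algebraMap F F' t⟯ := by
  obtain ⟨a, b, rfl⟩ := (mem_adjoin_simple_iff K (α := t) x).mp hx
  rw [map_div₀, ← map_aeval_eq (K' := K'), ← map_aeval_eq (K' := K')]
  exact (mem_adjoin_simple_iff K' _).mpr ⟨_, _, rfl⟩

/-- The inclusion `K(t) → K'(t)`. -/
def baseEmb (K K' F' : Type*) [Field K] [Field K'] [Field F'] [Algebra K K'] [Algebra K F]
    [Algebra K' F'] [Algebra F F'] [Algebra K F'] [IsScalarTower K F F'] [IsScalarTower K K' F']
    (t : F) :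
    K⟮t⟯ →+* K'⟮algebraMap F F' t⟯ where
  toFun x := ⟨algebraMap F F' (x : F), map_mem_adjoin t x.2⟩
  map_one' := Subtype.ext (by simp)
  map_mul' x y := Subtype.ext (by simp)
  map_zero' := Subtype.ext (by simp)
  map_add' x y := Subtype.ext (by simp)

@[simp]
theorem coe_baseEmb (t : F) (x : K⟮t⟯) :
    (baseEmb K K' F' t x : F') = algebraMap F F' (x : F) := rfl

variable [IsAlgClosed K] [CharZero K] [IsFunctionField1 K F] [IsConstantExtension K K' F F']

omit [IsConstantExtension K K' F F'] in
/-- Powers of some element of `F` form a basis over `K(t)` and stay independent over `K'(t)`. -/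
theorem exists_independent_powers {t : F} (ht : Transcendental K' (algebraMap F F' t)) :
    ∃ θ : F, LinearIndependent K'⟮algebraMap F F' t⟯
      (fun i : Fin (Module.finrank K⟮t⟯ F) => algebraMap F F' θ ^ (i : ℕ)) := by
  have htK := transcendental_of_map (K := K) ht
  have := finiteDimensional_adjoin_of_transcendental htK
  have := isSeparable_adjoin (K := K) htK
  set L := K⟮t⟯
  set L' := K'⟮algebraMap F F' t⟯
  set u : L := AdjoinSimple.gen K t
  set u' : L' := AdjoinSimple.gen K' (algebraMap F F' t)
  let : Algebra K[X] L := (aeval u).toAlgebra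
  let : Algebra K[X] F := ((algebraMap L F).comp (algebraMap K[X] L)).toAlgebra
  have : IsScalarTower K[X] L F := IsScalarTower.of_algebraMap_eq fun _ => rfl
  let : Algebra K[X] F' := ((algebraMap F F').comp (algebraMap K[X] F)).toAlgebra
  have : IsScalarTower K[X] F F' := IsScalarTower.of_algebraMap_eq fun _ => rfl
  let : Algebra K'[X] L' := (aeval u').toAlgebra
  let : Algebra K'[X] F' := ((algebraMap L' F').comp (algebraMap K'[X] L')).toAlgebra
  have : IsScalarTower K'[X] L' F' := IsScalarTower.of_algebraMap_eq fun _ => rfl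
  have hK : ∀ p : K[X], algebraMap K[X] F p = aeval t p := fun p => by
    show algebraMap L F (aeval u p) = _
    rw [← aeval_algebraMap_apply, AdjoinSimple.algebraMap_gen]
  have hK' : ∀ p : K'[X], algebraMap K'[X] F' p = aeval (algebraMap F F' t) p := fun p => by
    show algebraMap L' F' (aeval u' p) = _
    rw [← aeval_algebraMap_apply, AdjoinSimple.algebraMap_gen]
  have hinj : Function.Injective (algebraMap K[X] F) := by
    intro p q h
    rw [hK, hK] at h
    exact transcendental_iff_injective.mp htK h
  have hinjL : Function.Injective (algebraMap K[X] L) := fun p q h =>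
    hinj (congrArg (algebraMap L F) h)
  have hinj' : Function.Injective (algebraMap K'[X] F') := by
    intro p q h
    rw [hK', hK'] at h
    exact transcendental_iff_injective.mp ht h
  have hinjL' : Function.Injective (algebraMap K'[X] L') := fun p q h =>
    hinj' (congrArg (algebraMap L' F') h)
  have : FaithfulSMul K[X] L := (faithfulSMul_iff_algebraMap_injective _ _).mpr hinjL
  have : FaithfulSMul K'[X] L' := (faithfulSMul_iff_algebraMap_injective _ _).mpr hinjL'
  have : IsFractionRing K[X] L := IsFractionRing.of_field _ _ fun z => by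
    obtain ⟨a, b, h⟩ := (mem_adjoin_simple_iff K (α := t) (z : F)).mp z.2
    refine ⟨a, b, (algebraMap L F).injective ?_⟩
    rw [map_div₀, ← IsScalarTower.algebraMap_apply, ← IsScalarTower.algebraMap_apply, hK, hK]
    exact h
  have : IsFractionRing K'[X] L' := IsFractionRing.of_field _ _ fun z => by
    obtain ⟨a, b, h⟩ := (mem_adjoin_simple_iff K' (α := algebraMap F F' t) (z : F')).mp z.2
    refine ⟨a, b, (algebraMap L' F').injective ?_⟩
    rw [map_div₀, ← IsScalarTower.algebraMap_apply, ← IsScalarTower.algebraMap_apply, hK', hK']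
    exact h
  obtain ⟨θ₀, hθ₀⟩ := Field.exists_primitive_element L F
  obtain ⟨d, hd, hθint⟩ : ∃ d : K[X], d ≠ 0 ∧ IsIntegral K[X] (d • θ₀) := by
    have halg : IsAlgebraic K[X] θ₀ :=
      (IsFractionRing.isAlgebraic_iff K[X] L F).mpr (Algebra.IsAlgebraic.isAlgebraic θ₀)
    exact halg.exists_integral_multiple
  set θ := d • θ₀
  have hθ : L⟮θ⟯ = ⊤ := by
    have hdu : algebraMap K[X] L d ≠ 0 := fun h => hd (hinjL (h.trans (map_zero _).symm))
    refine top_le_iff.mp (hθ₀ ▸ adjoin_simple_le_iff.mpr ?_)
    have : θ₀ = (algebraMap K[X] L d)⁻¹ • θ := by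
      simp only [θ, ← algebraMap_smul L d θ₀, inv_smul_smul₀ hdu]
    rw [this, Algebra.smul_def]
    exact mul_mem (IntermediateField.algebraMap_mem _ _) (mem_adjoin_simple_self L θ)
  have hn : Module.finrank L F = (minpoly L θ).natDegree := by
    rw [← adjoin.finrank (Algebra.IsIntegral.isIntegral θ), hθ, finrank_top']
  have hint' : IsIntegral K[X] (algebraMap F F' θ) := hθint.algebraMap
  have hcompat : ∀ p : K[X],
      algebraMap K'[X] F' (p.map (algebraMap K K')) = algebraMap K[X] F' p := fun p => by
    rw [hK', map_aeval_eq, IsScalarTower.algebraMap_apply K[X] F F', hK]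
  have hint'' : IsIntegral K'[X] (algebraMap F F' θ) := by
    obtain ⟨P, hP, hP0⟩ := hint'
    refine ⟨P.map (mapRingHom (algebraMap K K')), hP.map _, ?_⟩
    rw [eval₂_map, show (algebraMap K'[X] F').comp (mapRingHom (algebraMap K K'))
      = algebraMap K[X] F' from RingHom.ext hcompat]
    exact hP0
  have hdeg : (minpoly L' (algebraMap F F' θ)).natDegree = Module.finrank L F := by
    rw [hn, minpoly.isIntegrallyClosed_eq_field_fractions' L hθint,
      minpoly.isIntegrallyClosed_eq_field_fractions' L' hint'',
      minpoly_map_eq hcompat hinj' hint', minpoly.algebraMap_eq (algebraMap F F').injective,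
      (minpoly.monic hθint).natDegree_map, ((minpoly.monic hθint).map _).natDegree_map,
      (minpoly.monic hθint).natDegree_map]
  refine ⟨θ, ?_⟩
  have := linearIndependent_pow (K := L') (algebraMap F F' θ)
  exact this.comp (fun i : Fin (Module.finrank L F) => (Fin.cast hdeg.symm i))
    (fun a b h => Fin.ext (by simpa using congrArg Fin.val h))

variable {t : F} (ht : Transcendental K' (algebraMap F F' t))
include ht

theorem finiteDimensional_and_finrank_eq :
    FiniteDimensional K'⟮algebraMap F F' t⟯ F' ∧
      Module.finrank K'⟮algebraMap F F' t⟯ F' = Module.finrank K⟮t⟯ F := by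
  classical
  have htK := transcendental_of_map (K := K) ht
  have := finiteDimensional_adjoin_of_transcendental htK
  set L := K⟮t⟯
  set L' := K'⟮algebraMap F F' t⟯
  set b := Module.finBasis L F
  set W : Submodule L' F' := Submodule.span L' (Set.range fun i => algebraMap F F' (b i))
  have hW : ∀ x : F, algebraMap F F' x ∈ W := fun x => by
    rw [← b.sum_repr x, map_sum]
    refine Submodule.sum_mem _ fun i _ => ?_
    have : algebraMap F F' (b.repr x i • b i) = baseEmb K K' F' t (b.repr x i) • algebraMap F F' (b i) := by
      rw [Algebra.smul_def, map_mul, Algebra.smul_def]; rfl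
    rw [this]
    exact Submodule.smul_mem _ _ (Submodule.subset_span ⟨i, rfl⟩)
  set S := Algebra.adjoin L' (Set.range (algebraMap F F'))
  have hS : Subalgebra.toSubmodule S ≤ W := by
    rw [Algebra.adjoin_eq_span, Submodule.span_le]
    intro y hy
    have : y ∈ Set.range (algebraMap F F') := by
      induction hy using Submonoid.closure_induction with
      | mem z hz => exact hz
      | one => exact ⟨1, map_one _⟩
      | mul z w _ _ hz hw =>
        obtain ⟨a, rfl⟩ := hz
        obtain ⟨c, rfl⟩ := hw
        exact ⟨a * c, map_mul _ _ _⟩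
    obtain ⟨x, rfl⟩ := this
    exact hW x
  have : FiniteDimensional L' W := FiniteDimensional.span_of_finite L' (Set.finite_range _)
  have : FiniteDimensional L' (Subalgebra.toSubmodule S) :=
    Submodule.finiteDimensional_of_le hS
  have halg : ∀ y ∈ Set.range (algebraMap F F'), IsAlgebraic L' y := fun y hy => by
    have : FiniteDimensional L' S := ‹FiniteDimensional L' (Subalgebra.toSubmodule S)›
    exact ((IsIntegral.of_finite L' (⟨y, Algebra.subset_adjoin hy⟩ : S)).map S.val).isAlgebraic
  have htop : S = ⊤ := by
    have h1 : (IntermediateField.adjoin L' (Set.range (algebraMap F F'))).toSubalgebra = S :=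
      adjoin_toSubalgebra_of_isAlgebraic halg
    rw [← h1, ← IntermediateField.top_toSubalgebra]
    congr 1
    apply IntermediateField.restrictScalars_injective K'
    rw [restrictScalars_top, eq_top_iff, ← IsConstantExtension.adjoin_range (K := K) (K' := K') (F := F),
      adjoin_le_iff]
    intro y hy
    exact IntermediateField.subset_adjoin L' _ hy
  have hWtop : W = ⊤ := eq_top_iff.mpr (by rw [htop, Algebra.top_toSubmodule] at hS; exact hS)
  have hfin : FiniteDimensional L' F' :=
    Module.Finite.equiv ((LinearEquiv.ofEq W ⊤ hWtop).trans Submodule.topEquiv)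
  refine ⟨hfin, le_antisymm ?_ ?_⟩
  · rw [← finrank_top L' F', ← hWtop]
    exact (finrank_range_le_card _).trans (by simp [L])
  · obtain ⟨θ, hθ⟩ := exists_independent_powers (K := K) ht
    simpa using hθ.fintype_card_le_finrank

/-- A basis of `F/K(t)` maps to a basis of `F'/K'(t)`. -/
def mapBasis {ι : Type*} [Fintype ι] (b : Module.Basis ι K⟮t⟯ F) :
    Module.Basis ι K'⟮algebraMap F F' t⟯ F' :=
  haveI := finiteDimensional_adjoin_of_transcendental (transcendental_of_map (K := K) ht)
  haveI := (finiteDimensional_and_finrank_eq (K := K) ht).1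
  have hspan : ⊤ ≤ Submodule.span K'⟮algebraMap F F' t⟯
      (Set.range fun i => algebraMap F F' (b i)) := by
    classical
    intro y _
    obtain ⟨θ, hθ⟩ := exists_independent_powers (K := K) ht
    have hθtop := hθ.span_eq_top_of_card_eq_finrank' (by
      rw [Fintype.card_fin, (finiteDimensional_and_finrank_eq (K := K) ht).2])
    have hy : y ∈ Submodule.span K'⟮algebraMap F F' t⟯ _ := hθtop ▸ Submodule.mem_top
    refine Submodule.span_le.mpr ?_ hy
    rintro _ ⟨k, rfl⟩
    show algebraMap F F' θ ^ (k : ℕ) ∈ _
    rw [← map_pow, ← b.sum_repr (θ ^ (k : ℕ)), map_sum]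
    refine Submodule.sum_mem _ fun i _ => ?_
    have : ∀ l : K⟮t⟯, algebraMap F F' (l • b i) = baseEmb K K' F' t l • algebraMap F F' (b i) :=
      fun l => by rw [Algebra.smul_def, map_mul, Algebra.smul_def]; rfl
    rw [this]
    exact Submodule.smul_mem _ _ (Submodule.subset_span ⟨i, rfl⟩)
  Module.Basis.mk (linearIndependent_of_top_le_span_of_card_eq_finrank hspan (by
    rw [(finiteDimensional_and_finrank_eq (K := K) ht).2, ← Module.finrank_eq_card_basis b])) hspan

theorem mapBasis_apply {ι : Type*} [Fintype ι] (b : Module.Basis ι K⟮t⟯ F) (i : ι) :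
    mapBasis ht b i = algebraMap F F' (b i) := by
  simp [mapBasis]

theorem mapBasis_repr {ι : Type*} [Fintype ι] (b : Module.Basis ι K⟮t⟯ F) (x : F) (i : ι) :
    (mapBasis ht b).repr (algebraMap F F' x) i = baseEmb K K' F' t (b.repr x i) := by
  have h : algebraMap F F' x = ∑ j, baseEmb K K' F' t (b.repr x j) • mapBasis ht b j := by
    conv_lhs => rw [← b.sum_repr x, map_sum]
    refine Finset.sum_congr rfl fun j _ => ?_
    rw [mapBasis_apply, Algebra.smul_def, map_mul, Algebra.smul_def]
    rfl
  rw [h, (mapBasis ht b).repr_sum_self]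

/-- The trace commutes with constant extension. -/
theorem trace_map (x : F) :
    Algebra.trace K'⟮algebraMap F F' t⟯ F' (algebraMap F F' x)
      = baseEmb K K' F' t (Algebra.trace K⟮t⟯ F x) := by
  classical
  have := finiteDimensional_adjoin_of_transcendental (transcendental_of_map (K := K) ht)
  set b := Module.finBasis K⟮t⟯ F
  rw [Algebra.trace_eq_matrix_trace (mapBasis ht b), Algebra.trace_eq_matrix_trace b,
    Matrix.trace, Matrix.trace, map_sum]
  refine Finset.sum_congr rfl fun i _ => ?_
  simp only [Matrix.diag, Algebra.leftMulMatrix_eq_repr_mul]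
  rw [mapBasis_apply, ← map_mul, mapBasis_repr]

omit ht in
/-- **Linear disjointness**: `K`-independent elements of `F` are `K'`-independent in `F'`. -/
theorem linearIndependent_map {ι : Type*} {v : ι → F} (hv : LinearIndependent K v) :
    LinearIndependent K' (fun i => algebraMap F F' (v i)) := by
  classical
  obtain ⟨t, ht⟩ := IsConstantExtension.exists_transcendental (K := K) (K' := K') (F := F) (F' := F')
  have htK := transcendental_of_map (K := K) ht
  have := finiteDimensional_adjoin_of_transcendental htK
  set b := Module.finBasis K⟮t⟯ F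
  rw [linearIndependent_iff'] at hv ⊢
  intro s a ha j hj
  -- common denominator for the finitely many coordinates
  have hden : ∀ i k, ∃ p q : K[X], q ≠ 0 ∧
      aeval t q * (b.repr (v i) k : F) = aeval t p := fun i k => by
    obtain ⟨p, q, h⟩ := (mem_adjoin_simple_iff K (α := t) _).mp (b.repr (v i) k).2
    by_cases hq : q = 0
    · exact ⟨0, 1, one_ne_zero, by simp [h, hq]⟩
    · refine ⟨p, q, hq, ?_⟩
      rw [h, mul_div_cancel₀]
      exact fun h0 => htK ⟨q, hq, h0⟩
  choose p q hq hpq using hden
  set d : Fin _ → K[X] := fun k => ∏ i ∈ s, q i k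
  set P : ι → Fin _ → K[X] := fun i k => p i k * ∏ l ∈ s.erase i, q l k
  have hP : ∀ i ∈ s, ∀ k, aeval t (d k) * (b.repr (v i) k : F) = aeval t (P i k) := fun i hi k => by
    simp only [d, P]
    rw [← Finset.mul_prod_erase s (fun l => q l k) hi, map_mul, map_mul, mul_right_comm, hpq]
  have hrel : ∀ k, ∑ i ∈ s, a i • (P i k).map (algebraMap K K') = 0 := fun k => by
    refine transcendental_iff_injective.mp ht ?_
    have h := congrArg (fun y => ((mapBasis ht b).repr y k : F')) ha
    simp only [map_sum, map_zero, Finsupp.finsetSum_apply, Finsupp.zero_apply] at h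
    rw [map_sum, map_zero]
    simp only [map_smul, map_aeval_eq]
    rw [IntermediateField.coe_zero] at h
    push_cast at h
    calc ∑ i ∈ s, a i • algebraMap F F' (aeval t (P i k))
        = algebraMap F F' (aeval t (d k)) * ∑ i ∈ s,
            ((mapBasis ht b).repr (a i • algebraMap F F' (v i)) k : F') := by
          rw [Finset.mul_sum]
          refine Finset.sum_congr rfl fun i hi => ?_
          rw [← algebraMap_smul K'⟮algebraMap F F' t⟯ (a i) (algebraMap F F' (v i)), map_smul,
            Finsupp.smul_apply, mapBasis_repr, smul_eq_mul, IntermediateField.coe_mul,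
            coe_baseEmb, ← hP i hi k, map_mul, Algebra.smul_def]
          rw [show ((algebraMap K' K'⟮algebraMap F F' t⟯ (a i) : K'⟮algebraMap F F' t⟯) : F')
            = algebraMap K' F' (a i) from rfl]
          ring
      _ = 0 := by rw [h, mul_zero]
  by_contra hne
  obtain ⟨φ, hφ⟩ : ∃ φ : Module.Dual K K', φ (a j) ≠ 0 := by
    by_contra h
    push Not at h
    exact hne ((Module.forall_dual_apply_eq_zero_iff K (a j)).mp h)
  have hzero : ∀ k, ∑ i ∈ s, φ (a i) • P i k = 0 := fun k => by
    ext m
    have h := congrArg (fun y => φ (y.coeff m)) (hrel k)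
    simp only [finsetSum_coeff, coeff_smul, coeff_map, smul_eq_mul, map_sum, coeff_zero,
      map_zero] at h ⊢
    rw [← h]
    refine Finset.sum_congr rfl fun i _ => ?_
    rw [mul_comm (a i), ← Algebra.smul_def, map_smul, smul_eq_mul, mul_comm]
  refine hφ (hv s (fun i => φ (a i)) ?_ j hj)
  refine b.ext_elem fun k => ?_
  have hd : aeval t (d k) ≠ 0 := by
    simp only [d, map_prod]
    exact Finset.prod_ne_zero_iff.mpr fun i _ h0 => htK ⟨_, hq i k, h0⟩
  have h := congrArg (aeval t) (hzero k)
  simp only [map_sum, map_smul, map_zero] at h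
  refine Subtype.ext (mul_left_cancel₀ hd ?_)
  rw [map_sum, map_zero, Finsupp.zero_apply, Finsupp.finsetSum_apply, IntermediateField.coe_zero,
    mul_zero, ← h]
  push_cast
  rw [Finset.mul_sum]
  refine Finset.sum_congr rfl fun i hi => ?_
  rw [← algebraMap_smul K⟮t⟯ (φ (a i)) (v i), map_smul, Finsupp.smul_apply, smul_eq_mul,
    IntermediateField.coe_mul, ← hP i hi k, Algebra.smul_def]
  rw [show ((algebraMap K K⟮t⟯ (φ (a i)) : K⟮t⟯) : F) = algebraMap K F (φ (a i)) from rfl]
  ring

end FermatAgent.Curve.Descent
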