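import Fermat.Agent.Curve.Descent.LinearDisjoint
import Fermat.Agent.Curve.Diff.LocalTrace
import Mathlib.RingTheory.Valuation.LocalSubring

/-!
# Places in a constant field extension

Every place of `F` has exactly one extension to `F' = K'·F`, unramified; a place of `F'` is such
an extension as soon as it is a zero or pole of some element of `F`.
-/

set_option autoImplicit false

noncomputable section

open AlgebraicCurve IntermediateField FermatAgent.Curve.Diff

namespace FermatAgent.Curve.Descent

variable {K K' F F' : Type*} [Field K] [Field K'] [Field F] [Field F']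
  [Algebra K K'] [Algebra K F] [Algebra K' F'] [Algebra F F'] [Algebra K F']
  [IsScalarTower K F F'] [IsScalarTower K K' F']
  [IsAlgClosed K] [CharZero K] [IsFunctionField1 K F] [IsConstantExtension K K' F F']
  [IsAlgClosed K'] [IsFunctionField1 K' F']

theorem exists_extension (P : Place K F) : ∃ (Q : Place K' F') (m : ℕ), 0 < m ∧
    ∀ x : F, Q.ord (algebraMap F F' x) = m * P.ord x := by
  classical
  let M : Submodule K F :=
    { carrier := {x | OrdGE P 1 x}
      zero_mem' := OrdGE.zero 1
      add_mem' := OrdGE.add
      smul_mem' := fun a x hx => by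
        have := (ordGE_algebraMap (v := P) a).mul hx
        rwa [zero_add, ← Algebra.smul_def] at this }
  set N : Submodule K' F' := Submodule.span K' (algebraMap F F' '' (M : Set F))
  set T : Submodule K' F' :=
    Submodule.span K' (algebraMap F F' '' (P.toValuationSubring : Set F))
  have hone : (1 : F') ∉ N := by
    let B := Module.Basis.ofVectorSpace K M
    set w : _ → F := fun i => (B i : F)
    have hw : LinearIndependent K w := B.linearIndependent.map' M.subtype M.ker_subtype
    have hspanw : Submodule.span K (Set.range w) = M := by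
      have : Set.range w = M.subtype '' Set.range B := by rw [← Set.range_comp]; rfl
      rw [this, ← Submodule.map_span, B.span_eq, Submodule.map_subtype_top]
    have h1 : (1 : F) ∉ M := fun h => by
      have := (show OrdGE P 1 (1 : F) from h).le_ord one_ne_zero
      simp at this
    have hopt := linearIndependent_map (K := K) (K' := K') (F' := F')
      (hw.option (x := (1 : F)) (by rwa [hspanw]))
    have := (linearIndependent_option.mp hopt).2
    simp only [Function.comp_def, Option.casesOn', map_one] at this
    intro hN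
    refine this (Submodule.span_le.mpr ?_ hN)
    rintro _ ⟨x, hx, rfl⟩
    have hx' : x ∈ Submodule.span K (Set.range w) := by rw [hspanw]; exact hx
    induction hx' using Submodule.span_induction with
    | mem y hy =>
      obtain ⟨i, rfl⟩ := hy
      exact Submodule.subset_span ⟨i, rfl⟩
    | zero => rw [map_zero]; exact zero_mem _
    | add y z _ _ hy hz =>
      rw [map_add]
      exact add_mem (hy (by rw [← hspanw]; assumption)) (hz (by rw [← hspanw]; assumption))
    | smul a y _ hy =>
      rw [Algebra.smul_def, map_mul, ← IsScalarTower.algebraMap_apply,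
        IsScalarTower.algebraMap_apply K K' F', ← Algebra.smul_def]
      exact Submodule.smul_mem _ _ (hy (by rw [← hspanw]; assumption))
  have hTmul : ∀ a ∈ T, ∀ b ∈ T, a * b ∈ T := by
    intro a ha b hb
    induction ha using Submodule.span_induction with
    | mem x hx =>
      obtain ⟨x, hx, rfl⟩ := hx
      induction hb using Submodule.span_induction with
      | mem y hy =>
        obtain ⟨y, hy, rfl⟩ := hy
        exact Submodule.subset_span ⟨x * y, mul_mem hx hy, map_mul _ _ _⟩
      | zero => rw [mul_zero]; exact zero_mem _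
      | add u v _ _ hu hv => rw [mul_add]; exact add_mem hu hv
      | smul c u _ hu => rw [mul_smul_comm]; exact Submodule.smul_mem _ _ hu
    | zero => rw [zero_mul]; exact zero_mem _
    | add u v _ _ hu hv => rw [add_mul]; exact add_mem hu hv
    | smul c u _ hu => rw [smul_mul_assoc]; exact Submodule.smul_mem _ _ hu
  have hNmul : ∀ a ∈ T, ∀ b ∈ N, a * b ∈ N := by
    intro a ha b hb
    induction ha using Submodule.span_induction with
    | mem x hx =>
      obtain ⟨x, hx, rfl⟩ := hx
      induction hb using Submodule.span_induction with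
      | mem y hy =>
        obtain ⟨y, hy, rfl⟩ := hy
        refine Submodule.subset_span ⟨x * y, ?_, map_mul _ _ _⟩
        have := (ordGE_zero_iff_mem.mpr hx).mul (show OrdGE P 1 y from hy)
        rwa [zero_add] at this
      | zero => rw [mul_zero]; exact zero_mem _
      | add u v _ _ hu hv => rw [mul_add]; exact add_mem hu hv
      | smul c u _ hu => rw [mul_smul_comm]; exact Submodule.smul_mem _ _ hu
    | zero => rw [zero_mul]; exact zero_mem _
    | add u v _ _ hu hv => rw [add_mul]; exact add_mem hu hv
    | smul c u _ hu => rw [smul_mul_assoc]; exact Submodule.smul_mem _ _ hu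
  have honeT : (1 : F') ∈ T := Submodule.subset_span ⟨1, one_mem _, map_one _⟩
  let A : Subring F' :=
    { carrier := T
      zero_mem' := T.zero_mem
      one_mem' := honeT
      add_mem' := T.add_mem
      neg_mem' := T.neg_mem
      mul_mem' := fun ha hb => hTmul _ ha _ hb }
  let I : Ideal A :=
    { carrier := {a | (a : F') ∈ N}
      zero_mem' := N.zero_mem
      add_mem' := fun ha hb => N.add_mem ha hb
      smul_mem' := fun a b hb => hNmul _ a.2 _ hb }
  have hI : I ≠ ⊤ := fun h => hone ((Ideal.eq_top_iff_one I).mp h)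
  obtain ⟨V, hAV, hIV⟩ := Ideal.image_subset_nonunits_valuationSubring I hI
  have hVK : ∀ a : K', algebraMap K' F' a ∈ V := fun a => hAV (by
    show algebraMap K' F' a ∈ T
    rw [Algebra.algebraMap_eq_smul_one]
    exact T.smul_mem a honeT)
  obtain ⟨π, hπ0, hπ⟩ := exists_ord_eq P 1
  have hnonunit : ∀ x : F, OrdGE P 1 x → algebraMap F F' x ∈ V.nonunits := fun x hx => by
    have hxN : algebraMap F F' x ∈ N := Submodule.subset_span ⟨x, hx, rfl⟩
    have hxT : algebraMap F F' x ∈ T :=
      Submodule.subset_span ⟨x, ordGE_zero_iff_mem.mp (hx.mono zero_le_one), rfl⟩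
    exact hIV ⟨⟨_, hxT⟩, hxN, rfl⟩
  have hπV := hnonunit π (Or.inr hπ.ge)
  have hVtop : V ≠ ⊤ := by
    intro h
    rcases V.inv_mem_nonunits_iff.mp (show ((algebraMap F F' π)⁻¹)⁻¹ ∈ V.nonunits by
      rw [inv_inv]; exact hπV) with h1 | h1
    · exact inv_ne_zero ((_root_.map_ne_zero _).mpr hπ0) h1
    · exact h1 (h ▸ ValuationSubring.mem_top _)
  set Q := placeOfValuationSubring V hVK hVtop
  have hQpos : ∀ x : F, x ≠ 0 → OrdGE P 1 x → 0 < Q.ord (algebraMap F F' x) := fun x hx0 hx =>
    ((mem_nonunits_iff_ord_pos Q).mp (hnonunit x hx)).resolve_left ((_root_.map_ne_zero _).mpr hx0)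
  have hQnn : ∀ x : F, x ∈ P.toValuationSubring → 0 ≤ Q.ord (algebraMap F F' x) := fun x hx =>
    ord_nonneg_of_mem' Q (hAV (show algebraMap F F' x ∈ T from
      Submodule.subset_span ⟨x, hx, rfl⟩))
  have hzero : ∀ x : F, x ≠ 0 → P.ord x = 0 → Q.ord (algebraMap F F' x) = 0 := fun x hx0 hx => by
    have h1 := hQnn x ((mem_iff_ord_nonneg P).mpr (Or.inr hx.ge))
    have h2 := hQnn x⁻¹ ((mem_iff_ord_nonneg P).mpr (Or.inr (by rw [P.ord_inv, hx, neg_zero])))
    rw [map_inv₀, Q.ord_inv] at h2
    omega
  have hm := hQpos π hπ0 (Or.inr hπ.ge)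
  refine ⟨Q, (Q.ord (algebraMap F F' π)).toNat, by omega, fun x => ?_⟩
  by_cases hx : x = 0
  · simp [hx]
  have h := hzero (x / π ^ P.ord x) (div_ne_zero hx (zpow_ne_zero _ hπ0)) (by
    rw [ord_div P hx (zpow_ne_zero _ hπ0), P.ord_zpow, hπ]; ring)
  rw [map_div₀, map_zpow₀, ord_div Q ((_root_.map_ne_zero _).mpr hx)
    (zpow_ne_zero _ ((_root_.map_ne_zero _).mpr hπ0)), Q.ord_zpow] at h
  rw [Int.toNat_of_nonneg hm.le]
  linarith

variable (K' F') in
/-- The extension of a place to `F'`. -/
def extPlace (P : Place K F) : Place K' F' := (exists_extension (K' := K') (F' := F') P).choose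

theorem exists_ord_extPlace (P : Place K F) : ∃ m : ℕ, 0 < m ∧
    ∀ x : F, (extPlace K' F' P).ord (algebraMap F F' x) = m * P.ord x :=
  (exists_extension (K' := K') (F' := F') P).choose_spec

theorem transcendental_map {x : F} (hx : Transcendental K x) :
    Transcendental K' (algebraMap F F' x) := by
  obtain ⟨P, hP⟩ := exists_ord_pos_of_transcendental hx
  obtain ⟨m, hm, h⟩ := exists_ord_extPlace (K' := K') (F' := F') P
  refine transcendental_of_ord_ne_zero (extPlace K' F' P) ?_
  rw [h]
  positivity

theorem extPlace_injective : Function.Injective (extPlace (K := K) (F := F) K' F') := by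
  intro P P' h
  obtain ⟨m, hm, hP⟩ := exists_ord_extPlace (K' := K') (F' := F') P
  obtain ⟨m', hm', hP'⟩ := exists_ord_extPlace (K' := K') (F' := F') P'
  refine place_eq_of_ord_nonneg fun f hf => ?_
  have h1 := hP f
  rw [h, hP' f] at h1
  nlinarith

/-- The `e·m` count over the zeros of `x`. -/
theorem zeros_eq_image {x : F} (hx : Transcendental K x) :
    (∀ P : Place K F, 0 < P.ord x →
      (extPlace K' F' P).ord (algebraMap F F' x) = P.ord x) ∧
      ∀ Q : Place K' F', 0 < Q.ord (algebraMap F F' x) → ∃ P : Place K F, extPlace K' F' P = Q := by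
  classical
  set S := zerosFinset (K := K) x
  set S' := zerosFinset (K := K') (algebraMap F F' x)
  have hx' := transcendental_map (K' := K') (F' := F') hx
  have h1 := sum_ord_zeros hx
  have h2 := sum_ord_zeros hx'
  rw [(finiteDimensional_and_finrank_eq (K := K) hx').2, ← h1] at h2
  change ∑ v ∈ S', _ = ∑ v ∈ S, _ at h2
  have hge : ∀ P ∈ S, P.ord x ≤ (extPlace K' F' P).ord (algebraMap F F' x) := fun P hP => by
    obtain ⟨m, hm, h⟩ := exists_ord_extPlace (K' := K') (F' := F') P
    have := mem_zerosFinset.mp hP
    rw [h]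
    nlinarith
  have hsub : S.image (extPlace K' F') ⊆ S' := fun Q hQ => by
    obtain ⟨P, hP, rfl⟩ := Finset.mem_image.mp hQ
    have := mem_zerosFinset.mp hP
    exact mem_zerosFinset.mpr (lt_of_lt_of_le this (hge P hP))
  have hsplit := Finset.sum_sdiff (f := fun Q : Place K' F' => Q.ord (algebraMap F F' x)) hsub
  rw [Finset.sum_image (extPlace_injective.injOn)] at hsplit
  have hnn : ∀ Q ∈ S' \ S.image (extPlace K' F'), 0 < Q.ord (algebraMap F F' x) := fun Q hQ =>
    mem_zerosFinset.mp (Finset.mem_sdiff.mp hQ).1
  have h3 := Finset.sum_le_sum hge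
  have h4 : 0 ≤ ∑ Q ∈ S' \ S.image (extPlace K' F'), Q.ord (algebraMap F F' x) :=
    Finset.sum_nonneg fun Q hQ => (hnn Q hQ).le
  refine ⟨fun P hP => ?_, fun Q hQ => ?_⟩
  · have := (Finset.sum_eq_sum_iff_of_le hge).mp (by omega) P (mem_zerosFinset.mpr hP)
    exact this.symm
  · by_contra hne
    have hmem : Q ∈ S' \ S.image (extPlace K' F') := by
      refine Finset.mem_sdiff.mpr ⟨mem_zerosFinset.mpr hQ, fun h => ?_⟩
      obtain ⟨P, -, rfl⟩ := Finset.mem_image.mp h
      exact hne ⟨P, rfl⟩
    have := Finset.sum_pos hnn ⟨Q, hmem⟩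
    omega

@[simp]
theorem ord_extPlace (P : Place K F) (x : F) :
    (extPlace K' F' P).ord (algebraMap F F' x) = P.ord x := by
  obtain ⟨m, hm, h⟩ := exists_ord_extPlace (K' := K') (F' := F') P
  obtain ⟨π, -, hπ⟩ := exists_ord_eq P 1
  have := (zeros_eq_image (K' := K') (F' := F')
    (transcendental_of_ord_ne_zero P (x := π) (by omega))).1 P (by omega)
  rw [h, hπ, mul_one] at this
  rw [h, this, one_mul]

/-- A place which is a zero or pole of an element of `F` comes from `F`. -/
theorem exists_extPlace_eq {Q : Place K' F'} {x : F} (hQ : Q.ord (algebraMap F F' x) ≠ 0) :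
    ∃ P : Place K F, extPlace K' F' P = Q := by
  have hx : Transcendental K x := by
    rw [transcendental_iff_notMem_range]
    rintro ⟨a, rfl⟩
    rw [← IsScalarTower.algebraMap_apply, IsScalarTower.algebraMap_apply K K' F',
      ord_algebraMap_const] at hQ
    exact hQ rfl
  rcases lt_or_gt_of_ne hQ with h | h
  · exact (zeros_eq_image (fun h' => hx (IsAlgebraic.inv_iff.mp h'))).2 Q
      (by rw [map_inv₀, Q.ord_inv]; omega)
  · exact (zeros_eq_image hx).2 Q h

theorem ord_map_eq_zero_of_notMem_range {Q : Place K' F'}
    (hQ : Q ∉ Set.range (extPlace (K := K) (F := F) K' F')) (x : F) :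
    Q.ord (algebraMap F F' x) = 0 := by
  by_contra h
  exact hQ (exists_extPlace_eq h)

/-- A place where some transcendental element of `F` takes a value in `K` comes from `F`. -/
theorem exists_extPlace_eq_of_valueAt {Q : Place K' F'} {x : F} (hx : Transcendental K x)
    {a : K} (ha : valueAt Q (algebraMap F F' x) = algebraMap K K' a) :
    ∃ P : Place K F, extPlace K' F' P = Q := by
  by_cases hmem : algebraMap F F' x ∈ Q.toValuationSubring
  · refine exists_extPlace_eq (x := x - algebraMap K F a) ?_
    have hne : algebraMap F F' x ≠ algebraMap K' F' (algebraMap K K' a) := by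
      rw [← IsScalarTower.algebraMap_apply, IsScalarTower.algebraMap_apply K F F']
      exact fun h => (transcendental_iff_notMem_range.mp hx)
        ⟨a, ((algebraMap F F').injective h).symm⟩
    have h := valueAt_spec Q hmem
    rw [ha] at h
    rw [map_sub, ← IsScalarTower.algebraMap_apply, IsScalarTower.algebraMap_apply K K' F']
    exact ne_of_gt (h.resolve_left hne)
  · refine exists_extPlace_eq (x := x) ?_
    intro h0
    exact hmem ((mem_iff_ord_nonneg Q).mpr (Or.inr h0.ge))

variable (K' F') in
/-- The constant extension of divisors. -/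
def extDivisor : Divisor K F →+ Divisor K' F' :=
  Finsupp.mapDomain.addMonoidHom (extPlace K' F')

theorem extDivisor_apply_extPlace (D : Divisor K F) (P : Place K F) :
    extDivisor K' F' D (extPlace K' F' P) = D P :=
  Finsupp.mapDomain_apply extPlace_injective D P

theorem extDivisor_apply_of_notMem {D : Divisor K F} {Q : Place K' F'}
    (hQ : Q ∉ Set.range (extPlace (K := K) (F := F) K' F')) : extDivisor K' F' D Q = 0 :=
  Finsupp.mapDomain_of_notMem_range D Q hQ

theorem extDivisor_single (P : Place K F) (n : ℤ) :
    extDivisor K' F' (Finsupp.single P n) = Finsupp.single (extPlace K' F' P) n :=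
  Finsupp.mapDomain_single

@[simp]
theorem degree_extDivisor (D : Divisor K F) :
    Divisor.degree (extDivisor K' F' D) = Divisor.degree D := by
  induction D using Finsupp.induction with
  | zero => simp
  | single_add P n D _ _ ih =>
    rw [map_add, map_add, map_add, ih, extDivisor_single, Divisor.degree_single,
      Divisor.degree_single, FermatAgent.Curve.deg_eq_one P,
      FermatAgent.Curve.deg_eq_one (extPlace K' F' P)]

theorem extDivisor_divisorOf (x : F) :
    extDivisor K' F' (divisorOf (K := K) x) = divisorOf (algebraMap F F' x) := by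
  ext Q
  by_cases hQ : Q ∈ Set.range (extPlace (K := K) (F := F) K' F')
  · obtain ⟨P, rfl⟩ := hQ
    rw [extDivisor_apply_extPlace, divisorOf_apply, divisorOf_apply, ord_extPlace]
  · rw [extDivisor_apply_of_notMem hQ, divisorOf_apply, ord_map_eq_zero_of_notMem_range hQ]

end FermatAgent.Curve.Descent
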