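import Mathlib.FieldTheory.IsAlgClosed.Basic
import Mathlib.RingTheory.Polynomial.GaussLemma
import Mathlib.LinearAlgebra.Basis.VectorSpace
import Mathlib.RingTheory.DedekindDomain.Basic
import Mathlib.RingTheory.Polynomial.UniqueFactorization
import Mathlib.FieldTheory.Minpoly.IsIntegrallyClosed

/-!
# An algebraically closed field is algebraically closed in every extension: polynomial versions

For `K` algebraically closed and a field extension `K'/K`, an element of `K'[X]` integral over
`K[X]` has coefficients in `K`, and a monic irreducible polynomial over `K[X]` stays irreducible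
over `K'[X]`.
-/

set_option autoImplicit false

noncomputable section

open Polynomial

namespace FermatAgent.Curve.Descent

variable {K K' : Type*} [Field K] [IsAlgClosed K] [Field K'] [Algebra K K']

theorem mem_range_map_of_isIntegralElem {h : K'[X]}
    (hh : (Polynomial.mapRingHom (algebraMap K K')).IsIntegralElem h) :
    ∃ h0 : K[X], h0.map (algebraMap K K') = h := by
  obtain ⟨φ, hφ⟩ := (Algebra.linearMap K K').exists_leftInverse_of_injective
    (LinearMap.ker_eq_bot.mpr (algebraMap K K').injective)
  refine ⟨∑ i ∈ h.support, Polynomial.C (φ (h.coeff i)) * X ^ i, ?_⟩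
  refine Polynomial.eq_of_infinite_eval_eq _ _
    (Set.Infinite.mono ?_ (Set.infinite_range_of_injective (algebraMap K K').injective))
  rintro _ ⟨c, rfl⟩
  obtain ⟨P, hP, hP0⟩ := hh
  have hint : IsIntegral K (h.eval (algebraMap K K' c)) := by
    refine ⟨P.map (evalRingHom c), hP.map _, ?_⟩
    have := congrArg (evalRingHom (algebraMap K K' c)) hP0
    rw [Polynomial.hom_eval₂, map_zero] at this
    have hc : (algebraMap K K').comp (evalRingHom c)
        = (evalRingHom (algebraMap K K' c)).comp (mapRingHom (algebraMap K K')) :=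
      Polynomial.ringHom_ext (fun a => by simp) (by simp)
    rw [eval₂_map, hc]
    exact this
  obtain ⟨d, hd⟩ : ∃ d : K, algebraMap K K' d = h.eval (algebraMap K K' c) := by
    have := IsAlgClosed.algebraMap_bijective_of_isIntegral (k := K)
      (K := integralClosure K K')
    obtain ⟨d, hd⟩ := this.2 ⟨_, hint⟩
    exact ⟨d, congrArg Subtype.val hd⟩
  have hφd : φ (h.eval (algebraMap K K' c)) = d := by
    rw [← hd]; exact LinearMap.congr_fun hφ d
  simp only [Set.mem_ofPred_eq, eval_map, eval₂_finsetSum, eval₂_mul, eval₂_C, eval₂_pow, eval₂_X]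
  rw [← hd, ← hφd, eval_eq_sum, Polynomial.sum_def, map_sum, map_sum]
  refine Finset.sum_congr rfl fun i _ => ?_
  have : h.coeff i * algebraMap K K' c ^ i = (c ^ i) • h.coeff i := by
    rw [Algebra.smul_def, map_pow, mul_comm]
  rw [this, map_smul, smul_eq_mul, map_mul, map_pow, mul_comm]

/-- A monic factor over `K'[X]` of a monic polynomial over `K[X]` is defined over `K[X]`. -/
theorem exists_map_eq_of_monic_dvd {f : K[X][X]} (hf : f.Monic) {g : K'[X][X]} (hg : g.Monic)
    (hdvd : g ∣ f.map (mapRingHom (algebraMap K K'))) :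
    ∃ g0 : K[X][X], g0.map (mapRingHom (algebraMap K K')) = g := by
  let : Algebra K[X] K'[X] := (mapRingHom (algebraMap K K')).toAlgebra
  let L := FractionRing K'[X]
  let ι : K'[X] →ₐ[K[X]] L := IsScalarTower.toAlgHom K[X] K'[X] L
  have h1 : g.map (ι : K'[X] →+* L) ∈
      lifts (algebraMap (integralClosure K[X] L) L) := by
    refine integralClosure.mem_lifts_of_monic_of_dvd_map L hf (hg.map _) ?_
    have := Polynomial.map_dvd (ι : K'[X] →+* L) hdvd
    rw [Polynomial.map_map] at this
    exact (ι.comp_algebraMap (R := K[X])) ▸ this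
  rw [← mem_lifts, lifts_iff_coeff_lifts]
  intro i
  obtain ⟨y, hy⟩ := (lifts_iff_coeff_lifts _).mp h1 i
  have hint : IsIntegral K[X] (g.coeff i) := by
    refine (isIntegral_algHom_iff ι (IsFractionRing.injective K'[X] L)).mp ?_
    have h2 := y.2
    rw [mem_integralClosure_iff] at h2
    rw [Polynomial.coeff_map] at hy
    exact hy ▸ h2
  obtain ⟨h0, hh0⟩ := mem_range_map_of_isIntegralElem hint
  exact ⟨h0, hh0⟩

theorem irreducible_map_of_monic {f : K[X][X]} (hf : f.Monic) (hirr : Irreducible f) :
    Irreducible (f.map (mapRingHom (algebraMap K K'))) := by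
  set ψ := mapRingHom (algebraMap K K') with hψ
  have hinj : Function.Injective ψ := Polynomial.map_injective _ (algebraMap K K').injective
  rw [(hf.map ψ).irreducible_iff_natDegree]
  refine ⟨fun h => hirr.ne_one ?_, fun g h hg hh hgh => ?_⟩
  · rw [← Polynomial.map_one ψ] at h
    exact Polynomial.map_injective ψ hinj h
  · obtain ⟨g0, hg0⟩ := exists_map_eq_of_monic_dvd hf hg ⟨h, hgh.symm⟩
    obtain ⟨h0, hh0⟩ := exists_map_eq_of_monic_dvd hf hh ⟨g, by rw [← hgh, mul_comm]⟩
    subst hg0 hh0
    rw [← Polynomial.map_mul] at hgh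
    have := ((hf.irreducible_iff_natDegree).mp hirr).2 g0 h0
      (Polynomial.monic_of_injective hinj hg) (Polynomial.monic_of_injective hinj hh)
      (Polynomial.map_injective ψ hinj hgh)
    rwa [natDegree_map_eq_of_injective hinj, natDegree_map_eq_of_injective hinj]

variable {F' : Type*} [Field F']

/-- Degree of an integral element over `K[X]` is preserved by extending constants to `K'`. -/
theorem minpoly_map_eq [Algebra K[X] F'] [Algebra K'[X] F']
    (hcompat : ∀ p : K[X], algebraMap K'[X] F' (p.map (algebraMap K K')) = algebraMap K[X] F' p)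
    (hinj : Function.Injective (algebraMap K'[X] F'))
    {x : F'} (hx : IsIntegral K[X] x) :
    minpoly K'[X] x = (minpoly K[X] x).map (mapRingHom (algebraMap K K')) := by
  have hcomp : (algebraMap K'[X] F').comp (mapRingHom (algebraMap K K')) = algebraMap K[X] F' :=
    RingHom.ext hcompat
  have hroot : aeval x ((minpoly K[X] x).map (mapRingHom (algebraMap K K'))) = 0 := by
    rw [aeval_def, eval₂_map, hcomp, ← aeval_def, minpoly.aeval]
  have hmon : ((minpoly K[X] x).map (mapRingHom (algebraMap K K'))).Monic :=
    (minpoly.monic hx).map _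
  have hirr := irreducible_map_of_monic (K' := K') (minpoly.monic hx) (minpoly.irreducible hx)
  have : Module.IsTorsionFree K'[X] F' := Module.isTorsionFree_iff_algebraMap_injective.mpr hinj
  have hx' : IsIntegral K'[X] x := ⟨_, hmon, hroot⟩
  obtain ⟨q, hq⟩ := minpoly.isIntegrallyClosed_dvd hx' hroot
  rcases hirr.isUnit_or_isUnit hq with h | h
  · exact absurd h (minpoly.not_isUnit _ _)
  · have hqm : q.Monic := (minpoly.monic hx').of_mul_monic_left (hq ▸ hmon)
    rw [hq, hqm.eq_one_of_isUnit h, mul_one]

end FermatAgent.Curve.Descent
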